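import Fermat.Agent.S44.Cusp.Defs
import Fermat.Agent.S44.Defs
import Fermat.Agent.S44.ResDeg.Main
import Fermat.Agent.SS.GM2.Descent

/-!
# S44 / Cusp / Desc : the descent `(ℚ̄, A) → (K₀, A₀)` :  `CuspK M p p ⟹ CuspP`      (TASK S44/Cusp-Desc)

Templates: `SS/GM2/Descent.lean` + `SS/GM2/Desc/*` (Steps 2, 3, 5) and `S44/ResDeg/Main.lean` (`rd_mem_full`: the same descent, `incl`, residue fields).

`f ∈ Dm (M p) p`, `A ∣ p`.
1. `SS.GM2` Desc/InvK: over `ℚ̄`, chart `y = 1/X`: `a_i b_i ∈ FF (M p)`, `a_i^p f`, `b_i^p f⁻¹` integral over `ℚ̄[y]`, `∑ a_i b_i = 1`.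
2. `K₀ ⊆ ℚ̄` a number field containing the coefficients of `f`, `a_i`, `b_i` (`exists_field`), `A₀ = A ∩ K₀` DVR, `k₀` finite, `ι : k₀ → kA A`; `wK` (`exists_wK`);
   integrality descends (`isIntegralElem_of_bar`): `InvKq K₀ (M p) p (castS K₀ (Xh M p))⁻¹ W`, `bc W = f`.
3. `CuspK` gives `c ∈ K₀ˣ`, `φ ∈ F_{k₀}(M)ˣ`, `RedK r (W * C c) φ`.   `r := coeffMap ι φ`:  `RedTo A (cst c * f) r` (apply `coeffMap (incl)` to the witnesses), so `RedUp A f r`;
   `r ∈ F_{kA}(M) = resF M A` (`S28.coeffMap_mem_full`, `ResDeg.resF_eq_full` / `full_le_resF`), `r ≠ 0`.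
4. `Q` a place of `resF M A` with `Q.ord (jt M A) < 0`.  `θ : F_{k₀}(M) →+* resF M A` (`coeffMap ι`), `V := Q.toValuationSubring.comap θ`; `k₀ ⊆ V`.
   `j̄(q^M) ∉ V`: otherwise `j̄(q)` is integral over `k[j̄(q^M)]` (`S28.isIntegralElem_V_of_dvd _ 1 M`), so `jt ∈ Q.toValuationSubring`, i.e. `0 ≤ Q.ord jt`.
   `η ^ p * φ ∈ Vˣ` ⟹ `Q.ord (θ η ^ p * r) = 0` ⟹ `Q.ord r = - p * Q.ord (θ η)`.
-/

set_option autoImplicit false

open AlgebraicCurve ModularCurve

namespace Fermat.Agent.S44.Cusp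

open Fermat.Agent.ES Fermat.Agent.SS Fermat.Agent.S33
open Fermat.Agent.S37.Mod (resF)
open Fermat.Agent.S44.Eis (jt)
open Fermat.Agent.SS.GM2 (RedK Jh Xh XF)
open Fermat.Agent.Crux (A0)
open Fermat.Agent.Crux.GM (castS)
open Fermat.Agent.S28 (V J evAt)

/-- `RedK` over `A₀ = A ∩ K₀` gives `RedTo` over `A`. -/
theorem redTo_of_redK (K₀ : Type*) [Field K₀] [Algebra K₀ Qb] (A : ValuationSubring Qb)
    (W₀ : LaurentSeries K₀) (φ : LaurentSeries (IsLocalRing.ResidueField (A0 K₀ A)))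
    (h : RedK (IsLocalRing.residue (A0 K₀ A)) W₀ φ) :
    RedTo A (coeffMap (algebraMap K₀ Qb) W₀)
      (coeffMap (IsLocalRing.ResidueField.map (ResDeg.incl K₀ A)) φ) := by
  obtain ⟨g, d, h0, h1, h2⟩ := h
  have e1 : ∀ z : LaurentSeries (A0 K₀ A), coeffMap (resA A) (coeffMap (ResDeg.incl K₀ A) z)
      = coeffMap (IsLocalRing.ResidueField.map (ResDeg.incl K₀ A))
          (coeffMap (IsLocalRing.residue (A0 K₀ A)) z) := by
    intro z
    ext n
    rw [coeffMap_coeff, coeffMap_coeff, coeffMap_coeff, coeffMap_coeff,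
      IsLocalRing.ResidueField.map_residue]
  have e2 : ∀ z : LaurentSeries (A0 K₀ A), coeffMap A.subtype (coeffMap (ResDeg.incl K₀ A) z)
      = coeffMap (algebraMap K₀ Qb) (coeffMap (algebraMap (A0 K₀ A) K₀) z) := by
    intro z
    ext n
    rw [coeffMap_coeff, coeffMap_coeff, coeffMap_coeff, coeffMap_coeff]
    rfl
  refine ⟨coeffMap (ResDeg.incl K₀ A) g, coeffMap (ResDeg.incl K₀ A) d, ?_, ?_, ?_⟩
  · rw [e1]
    intro h3
    apply h0
    apply Fermat.Agent.Crux.coeffMap_injective _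
      (IsLocalRing.ResidueField.map (ResDeg.incl K₀ A)).injective
    rw [h3, map_zero]
  · rw [e2, e2, ← map_mul, h1]
  · rw [e1, e1, h2, map_mul]

/-- the cuspidal places. -/
theorem dvd_ord_of_cusp {k₀ : Type} [Field k₀] (M p : ℕ) [NeZero M] (A : ValuationSubring Qb)
    (ι : k₀ →+* kA A) (φ : modularFunctionFieldFullC k₀ M) (hφ : φ ≠ 0)
    (H : ∀ V : ValuationSubring (modularFunctionFieldFullC k₀ M),
      (∀ a : k₀, algebraMap k₀ (modularFunctionFieldFullC k₀ M) a ∈ V) →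
      ∀ Jb : modularFunctionFieldFullC k₀ M, (Jb : LaurentSeries k₀) = castS k₀ (Jh M) → Jb ∉ V →
      ∃ η : modularFunctionFieldFullC k₀ M, η ≠ 0 ∧ η ^ p * φ ∈ V ∧ (η ^ p * φ)⁻¹ ∈ V)
    (hr : coeffMap ι (φ : LaurentSeries k₀) ∈ resF M A)
    (Q : Place (kA A) (resF M A)) (hQ : Q.ord (jt M A) < 0) :
    (p : ℤ) ∣ Q.ord (⟨coeffMap ι (φ : LaurentSeries k₀), hr⟩ : resF M A) := by
  have hmem : ∀ x : modularFunctionFieldFullC k₀ M,
      ((coeffMap ι).comp (modularFunctionFieldFullC k₀ M).val.toRingHom) x ∈ resF M A := fun x =>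
    ResDeg.full_le_resF M A (Fermat.Agent.S28.coeffMap_mem_full ι M x.2)
  let θ : modularFunctionFieldFullC k₀ M →+* resF M A :=
    ((coeffMap ι).comp (modularFunctionFieldFullC k₀ M).val.toRingHom).codRestrict (resF M A) hmem
  have hθ : ∀ x, ((θ x : resF M A) : LaurentSeries (kA A)) = coeffMap ι (x : LaurentSeries k₀) :=
    fun x => rfl
  have hk : ∀ a : k₀, algebraMap k₀ (modularFunctionFieldFullC k₀ M) a
      ∈ Q.toValuationSubring.comap θ := by
    intro a
    rw [ValuationSubring.mem_comap]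
    have : θ (algebraMap k₀ (modularFunctionFieldFullC k₀ M) a)
        = algebraMap (kA A) (resF M A) (ι a) := by
      apply Subtype.ext
      rw [hθ]
      show coeffMap ι (algebraMap k₀ (LaurentSeries k₀) a)
        = algebraMap (kA A) (LaurentSeries (kA A)) (ι a)
      rw [algebraMap_laurentSeries_eq_single, coeffMap_single, algebraMap_laurentSeries_eq_single]
    rw [this]
    exact Q.algebraMap_mem' _
  have hJ : (⟨V k₀ M (J k₀), jqModCd_mem_full k₀ M dvd_rfl⟩ : modularFunctionFieldFullC k₀ M)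
      ∉ Q.toValuationSubring.comap θ := by
    intro hJ
    rw [ValuationSubring.mem_comap] at hJ
    set y : resF M A := θ ⟨V k₀ M (J k₀), jqModCd_mem_full k₀ M dvd_rfl⟩ with hy
    have hy' : (y : LaurentSeries (kA A)) = V (kA A) M (J (kA A)) := by
      rw [hy, hθ]
      show coeffMap ι (V k₀ M (J k₀)) = _
      rw [coeffMap_qExpand, coeffMap_jqModC]
    obtain ⟨P, hP, hP0⟩ := (Fermat.Agent.S28.isIntegralElem_V_of_dvd (kA A) 1 M (one_dvd M)).2
    rw [qExpand_one_apply] at hP0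
    let g : Polynomial (kA A) →+* Q.toValuationSubring :=
      Polynomial.eval₂RingHom (algebraMap (kA A) Q.toValuationSubring) ⟨y, hJ⟩
    have hint : IsIntegral Q.toValuationSubring (jt M A) := by
      refine ⟨P.map g, hP.map g, ?_⟩
      apply Subtype.ext
      rw [Polynomial.eval₂_map]
      have h1 := Polynomial.hom_eval₂ P ((algebraMap Q.toValuationSubring (resF M A)).comp g)
        (resF M A).val.toRingHom (jt M A)
      have h2 : ((resF M A).val.toRingHom).comp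
          ((algebraMap Q.toValuationSubring (resF M A)).comp g)
          = evAt (V (kA A) M (J (kA A))) := by
        apply Polynomial.ringHom_ext
        · intro a
          simp only [g, evAt, RingHom.comp_apply, Polynomial.coe_eval₂RingHom, Polynomial.eval₂_C]
          show algebraMap (kA A) (LaurentSeries (kA A)) a = HahnSeries.C a
          rw [algebraMap_laurentSeries_eq_single]
          rfl
        · simp only [g, evAt, RingHom.comp_apply, Polynomial.coe_eval₂RingHom, Polynomial.eval₂_X]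
          exact hy'
      rw [h2] at h1
      exact h1.trans hP0
    obtain ⟨z, hz⟩ := IsIntegrallyClosed.isIntegral_iff.mp hint
    have : jt M A ∈ Q.toValuationSubring := by rw [← hz]; exact z.2
    exact absurd (Fermat.Agent.S24.FF.ord_nonneg_of_mem Q this) (not_le.mpr hQ)
  obtain ⟨η, hη, h1, h2⟩ := H _ hk _ (Fermat.Agent.Crux.GM.CoordJ.castS_VJ k₀ M).symm hJ
  rw [ValuationSubring.mem_comap] at h1 h2
  have hθη : θ η ≠ 0 := (map_ne_zero θ).mpr hη
  have hθφ : θ φ ≠ 0 := (map_ne_zero θ).mpr hφ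
  have k1 := Fermat.Agent.S24.FF.ord_nonneg_of_mem Q h1
  have k2 := Fermat.Agent.S24.FF.ord_nonneg_of_mem Q h2
  rw [map_inv₀, Q.ord_inv] at k2
  rw [map_mul, map_pow, Q.ord_mul (pow_ne_zero _ hθη) hθφ, Fermat.Agent.S24.FF.ord_pow] at k1 k2
  have k3 : Q.ord (θ φ) = (p : ℤ) * (- Q.ord (θ η)) := by linarith
  show (p : ℤ) ∣ Q.ord (θ φ)
  rw [k3]
  exact dvd_mul_right _ _

theorem cuspP_of_cuspK (M p : ℕ) [NeZero M] [NeZero p] (hp : p.Prime) (hpM : ¬ p ∣ M)
    (h : CuspK M p p) (A : ValuationSubring Qb) (hA : A.LiesOverPrime p) (f : Dm (M * p) p) :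
    CuspP M A p (((f : (FF (M * p))ˣ) : FF (M * p)) : LaurentSeries Qb) := by
  classical
  set W : FF (M * p) := ((f : (FF (M * p))ˣ) : FF (M * p)) with hW
  have hW0 : W ≠ 0 := Units.ne_zero _
  have hfd0 : FiniteDimensional (IntermediateField.adjoin Qb {S24.jN (M * p)}) (FF (M * p)) :=
    S24.finiteDimensional_FN (M * p)
  have hfd' : FiniteDimensional (IntermediateField.adjoin Qb {(XF M p)⁻¹}) (FF (M * p)) :=
    S24.FF.finiteDimensional_of_transcendental Qb (S24.jN (M * p))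
      (GM2.transcendental_XF_inv M p)
  obtain ⟨n, a, b, ha, hb, hab⟩ :=
    GM2.exists_invK_gen (K := Qb) (XF M p)⁻¹ p hp.pos W hW0 (fun P => f.2 P)
  obtain ⟨w, hw⟩ := exists_isAL M p hp hpM
  obtain ⟨K₀, hfin, -, -, hS⟩ := GM2.exists_field (M * p) ∅
    ({W} ∪ Finset.univ.image a ∪ Finset.univ.image b)
  have hnf : NumberField K₀ := ⟨⟩
  have hdvr : IsDiscreteValuationRing (A0 K₀ A) :=
    Crux.isDiscreteValuationRing_of_numberField _ (Crux.A0_ne_top K₀ A hp hA)
  have hfinr : Finite (IsLocalRing.ResidueField (A0 K₀ A)) :=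
    GM2.finite_residueField _ (Crux.A0_ne_top K₀ A hp hA)
  obtain ⟨wK, hwK, -⟩ := GM2.exists_wK M p hp w hw K₀
  obtain ⟨W₀, hW₀m, hW₀⟩ := hS W (by simp)
  have hXm : coeffMap (algebraMap K₀ Qb) (castS K₀ (Xh M p)) = (XF M p : LaurentSeries Qb) := by
    rw [Crux.GM.coeffMap_castS]; rfl
  have hXm' : coeffMap (algebraMap K₀ Qb) (castS K₀ (Xh M p))⁻¹
      = (((XF M p)⁻¹ : FF (M * p)) : LaurentSeries Qb) := by
    rw [map_inv₀, hXm]
    rfl
  have I2 : GM2.InvKq K₀ (M * p) p (castS K₀ (Xh M p))⁻¹ W₀ :=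
    GM2.invKq_of_models K₀ (M * p) p (XF M p)⁻¹ W _ W₀ hXm' hW₀ n a b ha hb hab
      (fun i => hS (a i) (by simp)) (fun i => hS (b i) (by simp))
  have hW₀0 : (⟨W₀, hW₀m⟩ : modularFunctionFieldFullC K₀ (M * p)) ≠ 0 := by
    intro h0
    have h1 : W₀ = 0 := congrArg Subtype.val h0
    rw [h1, map_zero] at hW₀
    exact hW0 (Subtype.ext hW₀.symm)
  obtain ⟨c, φ, hc, hφ, hred, hV⟩ := h (A := A0 K₀ A) (K := K₀)
    (k := IsLocalRing.ResidueField (A0 K₀ A))
    (IsLocalRing.residue (A0 K₀ A)) IsLocalRing.residue_surjective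
    (Crux.residue_A0_natCast K₀ A hA) wK hwK ⟨W₀, hW₀m⟩ hW₀0 I2
  have hr : coeffMap (IsLocalRing.ResidueField.map (ResDeg.incl K₀ A))
      (φ : LaurentSeries (IsLocalRing.ResidueField (A0 K₀ A))) ∈ resF M A :=
    ResDeg.full_le_resF M A (Fermat.Agent.S28.coeffMap_mem_full _ M φ.2)
  refine ⟨coeffMap (IsLocalRing.ResidueField.map (ResDeg.incl K₀ A))
      (φ : LaurentSeries (IsLocalRing.ResidueField (A0 K₀ A))), ?_, hr, ?_, ?_⟩
  · refine ⟨algebraMap K₀ Qb c, (map_ne_zero _).mpr hc, ?_⟩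
    have h1 := redTo_of_redK K₀ A _ _ hred
    rw [map_mul] at h1
    refine h1.congr ?_ rfl
    rw [mul_comm]
    congr 1
    rw [cst, algebraMap_laurentSeries_eq_single]
    exact coeffMap_single _ _ _
  · intro h0
    apply hφ
    apply Subtype.ext
    apply Fermat.Agent.Crux.coeffMap_injective _
      (IsLocalRing.ResidueField.map (ResDeg.incl K₀ A)).injective
    rw [h0]
    exact (map_zero _).symm
  · intro Q hQ
    exact dvd_ord_of_cusp M p A _ φ hφ hV hr Q hQ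

end Fermat.Agent.S44.Cusp
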