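import Fermat.Agent.S44.Cusp.Tower
import Fermat.Agent.S44.Cusp.Desc

/-!
# S44 / Cusp / Main : `CuspP` for every `f ∈ Dm (M p) p`  (`p ≥ 5`, `p ∤ M`).
-/

set_option autoImplicit false

open AlgebraicCurve ModularCurve

namespace Fermat.Agent.S44.Cusp

open Fermat.Agent.ES Fermat.Agent.SS Fermat.Agent.S33

/-- **EXPORT: `p ∣ ord` at the cusps.** -/
theorem cuspP (M p : ℕ) [NeZero M] [NeZero p] (hp : p.Prime) (hp5 : 5 ≤ p) (hpM : ¬ p ∣ M)
    (A : ValuationSubring Qb) (hA : A.LiesOverPrime p) (f : Dm (M * p) p) :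
    CuspP M A p (((f : (FF (M * p))ˣ) : FF (M * p)) : LaurentSeries Qb) :=
  cuspP_of_cuspK M p hp hpM
    (cuspK_tower M p p hp hpM ⟨fun h => by omega, fun h => by omega⟩ hp.pos) A hA f

end Fermat.Agent.S44.Cusp
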