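import Fermat.Agent.S44.Bridge.Inst
import Fermat.Agent.S44.Loc.At2

/-!
# S44 / Cusp / Abs : the cusps are smooth points of the special fibre, and `LocSmooth` at the cusps.

Setting of `Bridge/Inst.lean` for ONE chart whose coordinate `X` vanishes at the cusps (`x = 1/(J Y)`):
`G : Good M r Φ w tk B`.   Extra input: `u ∈ SM A F` with `r₁ u = 1`, `r₂ u = tk ^ N`, `N > 0`   (`u = Y / J ^ ℓ`).

* `not_le_of_cusp` : `X ∈ n`, `Q₁ ≤ n`, `n ≠ ⊤`  ⟹  `¬ Q₂ ≤ n`   ("cusps are not glued");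
* `cusp_prime`     : for `W ≠ 0` with `InvK π m W` there are `j`, `φ ≠ 0` in `F_k(M)`, `RedK r (Φ W * π ^ (-j)) φ` such that for every
                     prime `P` of `B.R` containing `tk`:  `s * (η ^ m * φ) = t` with `s t ∈ R ∖ P`, `η ∈ F_k(M)ˣ`.
-/

set_option autoImplicit false
set_option linter.unusedSectionVars false
set_option linter.style.haveILetI false

open Polynomial ModularCurve

namespace Fermat.Agent.S44.Cusp

open Fermat.Agent.Crux.G Fermat.Agent.SS.G2 Fermat.Agent.S44.Loc Fermat.Agent.SS.GM2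
open Fermat.Agent.S44.Bridge
open Fermat.Agent.S28 (V J evAt)

variable {M : ℕ} [NeZero M]
variable {A K k : Type} [CommRing A] [IsDomain A] [IsDiscreteValuationRing A] [Field K]
  [Algebra A K] [IsFractionRing A K] [Field k] [Finite k] {r : A →+* k} {π : A}
variable {F : Type} [Field F] {Φ : F →+* LaurentSeries K} {w : F →+* F}
variable [Algebra A[X] F] {tk : LaurentSeries k} {hπ : Prime π}
  {B : BridgeData hπ F k (LaurentSeries k)}

/-- the chart coordinate, in the chart ring. -/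
noncomputable def xS (A : Type) [CommRing A] (F : Type) [Field F] [Algebra A[X] F] : SM A F :=
  algebraMap A[X] (SM A F) X

theorem r₁_xS (G : Good M r Φ w tk B) : r₁ B (xS A F) = tk := G.x₁

theorem r₂_xS (G : Good M r Φ w tk B) : r₂ B (xS A F) = tk := G.x₂

/-- **cusps are not glued.** -/
theorem not_le_of_cusp (G : Good M r Φ w tk B) (u : SM A F) (N : ℕ) (hN : 0 < N)
    (hu1 : r₁ B u = 1) (hu2 : r₂ B u = tk ^ N) {n : Ideal (SM A F)} (hn : n ≠ ⊤)
    (h1 : Q₁ B ≤ n) (hx : xS A F ∈ n) : ¬ Q₂ B ≤ n := by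
  intro h2
  apply hn
  rw [Ideal.eq_top_iff_one]
  have e1 : u - 1 ∈ n := h1 (by rw [mem_Q₁, map_sub, hu1, map_one, sub_self])
  have e2 : u - xS A F ^ N ∈ n := h2 (by rw [mem_Q₂, map_sub, map_pow, hu2, r₂_xS G, sub_self])
  have e3 : xS A F ^ N ∈ n := Ideal.pow_mem_of_mem _ hx _ hN
  have : (1 : SM A F) = (u - xS A F ^ N) + xS A F ^ N - (u - 1) := by ring
  rw [this]
  exact Ideal.sub_mem _ (Ideal.add_mem _ e2 e3) e1

section Main

variable (E : Type*) [Field E] [Algebra A[X] E] [IsFractionRing A[X] E] [CharZero E]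
  [Algebra E F] [IsScalarTower A[X] E F] [FiniteDimensional E F]

include E in
/-- the centre of a nonzero prime of `R`. -/
theorem isMaximal_comap (_G : Good M r Φ w tk B) {P : Ideal B.R} (hP : P.IsPrime) (hP0 : P ≠ ⊥) :
    (P.comap (r₁R B)).IsMaximal := by
  haveI := dimensionLEOne_R B
  haveI : P.IsMaximal := hP.isMaximal hP0
  exact Ideal.comap_isMaximal_of_surjective _ (r₁R_surjective B)

include E in
/-- **`LocSmooth` at the cusps**, in terms of the primes of `R`. -/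
theorem cusp_prime (G : Good M r Φ w tk B) (u : SM A F) (N : ℕ) (hN : 0 < N)
    (hu1 : r₁ B u = 1) (hu2 : r₂ B u = tk ^ N) (m : ℕ) (hm : 0 < m) (W : F) (hW : W ≠ 0)
    (hinv : Fermat.Agent.SS.G2.InvK π m W) :
    ∃ (j : ℤ) (φ : LaurentSeries k), φ ≠ 0 ∧ φ ∈ modularFunctionFieldFullC k M ∧
      RedK r (Φ W * (HahnSeries.C (algebraMap A K π) : LaurentSeries K) ^ (-j)) φ ∧
      ∀ P : Ideal B.R, P.IsPrime → r₁R B (xS A F) ∈ P →
        ∃ (η : LaurentSeries k) (s t : B.R), η ≠ 0 ∧ η ∈ modularFunctionFieldFullC k M ∧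
          s ∉ P ∧ t ∉ P ∧ (s : LaurentSeries k) * (η ^ m * φ) = t := by
  haveI := isNoetherianRing_SM (A := A) (F := F) E
  haveI := isFractionRing_SM (A := A) (F := F) E
  have hL := G.locPrin₁ E
  have D := G.redData₁
  obtain ⟨j, hj⟩ := exists_vEq hL hW
  obtain ⟨s₀, o₀, hs₀, ho₀, hred⟩ := D.of_vEq hj
  refine ⟨j, r₁ B o₀ / r₁ B s₀, div_ne_zero ho₀ hs₀,
    div_mem (G.r₁_mem_full o₀) (G.r₁_mem_full s₀), hred, fun P hP hxP => ?_⟩
  -- the centre
  have htk0 : tk ≠ 0 := fun h => G.tr (h ▸ isAlgebraic_zero)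
  have hP0 : P ≠ ⊥ := by
    rintro rfl
    have h0 : r₁R B (xS A F) = 0 := hxP
    have h1 := congrArg Subtype.val h0
    rw [coe_r₁R, r₁_xS G] at h1
    exact htk0 h1
  have hmax := isMaximal_comap E G hP hP0
  set n : Ideal (SM A F) := P.comap (r₁R B) with hn
  have h1 : Q₁ B ≤ n := by
    rw [← ker_r₁R]
    exact fun x hx => by
      rw [hn, Ideal.mem_comap, (RingHom.mem_ker).1 hx]; exact P.zero_mem
  have h2 : ¬ Q₂ B ≤ n := not_le_of_cusp G u N hN hu1 hu2 hmax.ne_top h1 hxP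
  have hsm : SmoothAt n (pi π F) (Q₁ B) := smoothAt₁ B E G.ic hmax h1 h2
  -- normalisation of `W`
  have hπF : algebraMap (SM A F) F (pi π F) ≠ 0 := algebraMap_pi_ne_zero hL
  have hW0 : VEq (Q₁ B) (pi π F) 0 (W * algebraMap (SM A F) F (pi π F) ^ (-j)) := by
    have := hj.mul hL (vEq_pi_zpow hL (-j))
    rwa [add_neg_cancel] at this
  have hinR : ∀ i : ℤ, InR (pi π F) (algebraMap (SM A F) F (pi π F) ^ i) := by
    intro i
    refine ⟨(-i).toNat, pi π F ^ i.toNat, ?_⟩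
    rw [map_pow, ← zpow_natCast, ← zpow_natCast, ← zpow_add₀ hπF]
    congr 1
    omega
  have hinv' : Fermat.Agent.S44.Loc.InvK (pi π F) m
      (W * algebraMap (SM A F) F (pi π F) ^ (-j)) :=
    InvK.mul_unit (invK_iff.2 hinv) (hinR _) (by rw [← zpow_neg]; exact hinR _)
  obtain ⟨y, s, t, hy, hs, ht, e⟩ := locSmoothAt' hsm (Normal.at hmax.ne_top normal) hm hW0
    (InvK.at hmax.ne_top hinv')
  obtain ⟨s₁, o₁, hs₁, ho₁, hredy⟩ := D.of_vEq hy
  refine ⟨r₁ B o₁ / r₁ B s₁, r₁R B s, r₁R B t, div_ne_zero ho₁ hs₁,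
    div_mem (G.r₁_mem_full o₁) (G.r₁_mem_full s₁), hs, ht, ?_⟩
  rw [neg_zero, zpow_zero, mul_one] at hredy
  have hΦ : Φ (W * algebraMap (SM A F) F (pi π F) ^ (-j)) =
      Φ W * (HahnSeries.C (algebraMap A K π) : LaurentSeries K) ^ (-j) := by
    rw [map_mul, map_zpow₀, D.pi]
  have r1 : RedK r (Φ (algebraMap (SM A F) F s *
      (y ^ m * (W * algebraMap (SM A F) F (pi π F) ^ (-j)))))
      (r₁ B s * ((r₁ B o₁ / r₁ B s₁) ^ m * (r₁ B o₀ / r₁ B s₀))) := by
    rw [map_mul, map_mul, map_pow, hΦ]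
    exact (D.red s).mul ((hredy.pow m).mul hred)
  rw [e] at r1
  exact r1.unique (D.red t)

end Main

end Fermat.Agent.S44.Cusp
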