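import Fermat.Agent.SS.GM2.Defs

/-!
# S44 / Cusp / Defs : the `K`-level statement "`p ∣ ord` at the cusps" (analogue of `SS.GM2.CoreK2`).

`A` a DVR of a number field `K ⊆ ℚ̄`, `r : A → k` the residue map (`k` finite, of characteristic `ℓ`), `N = M ℓ`.
`W ∈ F_K(N)ˣ` with `div W ∈ m Div` on the chart `1/X` (`X = j(q^M) j(q^{Mℓ})`; form `InvKq`).
Then a constant multiple of `W` has a nonzero reduction `φ ∈ F_k(M)`, and `φ` is a unit times an `m`-th power at every CUSPIDAL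
valuation ring `V` of `F_k(M)` (`k ⊆ V`, `j̄(q^M) ∉ V`).
-/

set_option autoImplicit false

open Polynomial ModularCurve

namespace Fermat.Agent.S44.Cusp

open Fermat.Agent.SS.GM2
open Fermat.Agent.Crux.GM (castS)
open Fermat.Agent.ES (Qb)

/-- **`m ∣ ord` at the cusps, `K`-level.** -/
def CuspK (M ℓ m : ℕ) [NeZero M] [NeZero ℓ] : Prop :=
  ∀ {A K k : Type} [CommRing A] [IsDomain A] [IsDiscreteValuationRing A] [Field K]
    [Algebra A K] [IsFractionRing A K] [Algebra K Qb] [Field k] [Finite k]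
    (r : A →+* k), Function.Surjective r → r ℓ = 0 →
  ∀ w : modularFunctionFieldFullC K (M * ℓ) →ₐ[K] modularFunctionFieldFullC K (M * ℓ),
    IsALK K M ℓ w →
  ∀ W : modularFunctionFieldFullC K (M * ℓ), W ≠ 0 →
    InvKq K (M * ℓ) m (castS K (Xh M ℓ))⁻¹ W →
  ∃ (c : K) (φ : modularFunctionFieldFullC k M), c ≠ 0 ∧ φ ≠ 0 ∧
    RedK r ((W : LaurentSeries K) * HahnSeries.C c) (φ : LaurentSeries k) ∧
    ∀ V : ValuationSubring (modularFunctionFieldFullC k M),
      (∀ a : k, algebraMap k (modularFunctionFieldFullC k M) a ∈ V) →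
      ∀ Jb : modularFunctionFieldFullC k M, (Jb : LaurentSeries k) = castS k (Jh M) → Jb ∉ V →
      ∃ η : modularFunctionFieldFullC k M, η ≠ 0 ∧ η ^ m * φ ∈ V ∧ (η ^ m * φ)⁻¹ ∈ V

end Fermat.Agent.S44.Cusp
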