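import Fermat.Agent.S44.Cusp.Val
import Fermat.Agent.S44.Cusp.Defs
import Fermat.Agent.SS.GM2.Core
import Fermat.Agent.SS.GM2.TowerAux

/-!
# S44 / Cusp / Core : `Setup`-level statement (analogue of `SS.GM2.core2_abstract`).
-/

set_option autoImplicit false
set_option linter.unusedSectionVars false
set_option linter.style.haveILetI false

open Polynomial ModularCurve

namespace Fermat.Agent.S44.Cusp

open Fermat.Agent.Crux.G Fermat.Agent.SS.G2 Fermat.Agent.S44.Loc Fermat.Agent.SS.GM2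
open Fermat.Agent.S44.Bridge
open Fermat.Agent.S28 (V J evAt)
open Fermat.Agent.Crux.GM (castS)
open Fermat.Agent.S24 (XN)

variable {M ℓ : ℕ} [NeZero M] [NeZero ℓ]
variable {A K k : Type} [CommRing A] [IsDomain A] [IsDiscreteValuationRing A] [Field K]
  [CharZero K] [Algebra A K] [IsFractionRing A K] [Algebra K Fermat.Agent.S24.Kb] [Field k] [Finite k]
  {r : A →+* k} {π : A}
variable {F : Type} [Field F] [Algebra A F] {Φ : F →+* LaurentSeries K} {w : F →+* F}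

theorem cusp_abstract
    {E E₁ : Type} [Field E] [Field E₁] [CharZero E]
    [Algebra A E] [Algebra E F] [IsScalarTower A E F] [FiniteDimensional E F]
    [Algebra A E₁] [Algebra E₁ F] [IsScalarTower A E₁ F]
    (S : Setup M ℓ r π Φ w)
    (X : E) (hX : Φ (algebraMap E F X) = castS K (Xh M ℓ)) (hXt : Transcendental A X)
    (hgen : ∀ c : E, ∃ p q : A[X], q ≠ 0 ∧ c * aeval X q = aeval X p)
    (Y₁ : E₁) (hY₁ : Φ (algebraMap E₁ F Y₁) = castS K (Jh (M * ℓ)))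
    (hY₁t : Transcendental A Y₁)
    (hgen₁ : ∀ c : E₁, ∃ p q : A[X], q ≠ 0 ∧ c * aeval Y₁ q = aeval Y₁ p)
    (hn₁ : Module.finrank E₁ F = Nat.card (XN (M * ℓ)))
    (Ginf : GR M r (castS K (Jh M))⁻¹ (castS k (Jh M))⁻¹)
    (hU : (evAt (castS K (Xh M ℓ))⁻¹).IsIntegralElem
      (castS K (Jh (M * ℓ)) / castS K (Jh M) ^ ℓ))
    (m : ℕ) (hm : 0 < m) (W : F) (hW : W ≠ 0) (hinvinf : InvKx π X⁻¹ m W) :
    ∃ (j : ℤ) (φ : modularFunctionFieldFullC k M), φ ≠ 0 ∧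
      RedK r (Φ W * (HahnSeries.C (algebraMap A K π) : LaurentSeries K) ^ (-j))
        (φ : LaurentSeries k) ∧
      ∀ V : ValuationSubring (modularFunctionFieldFullC k M),
        (∀ a : k, algebraMap k (modularFunctionFieldFullC k M) a ∈ V) →
        ∀ Jb : modularFunctionFieldFullC k M, (Jb : LaurentSeries k) = castS k (Jh M) → Jb ∉ V →
        ∃ η : modularFunctionFieldFullC k M, η ≠ 0 ∧ η ^ m * φ ∈ V ∧ (η ^ m * φ)⁻¹ ∈ V := by
  classical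
  have hℓ := S.hℓ
  haveI : Fact ℓ.Prime := ⟨hℓ⟩
  haveI hchar : CharP k ℓ := by
    have : (ℓ : k) = 0 := by rw [← map_natCast r, S.hrℓ]
    exact (CharP.charP_iff_prime_eq_zero hℓ).mpr this
  obtain ⟨Jf, Yf, hJ, hY⟩ := S.exists_J
  have hYe : algebraMap E₁ F Y₁ = Yf := Φ.injective (by rw [hY₁, hY])
  have hXe : algebraMap E F X = Jf * Yf := Φ.injective (by rw [hX, S.Phi_X hJ hY])
  have QY : QL M r π Φ w Yf := hYe ▸ S.ql_Y Y₁ hY₁ hY₁t hgen₁ hn₁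
  have QX : QL M r π Φ w (algebraMap E F X) := hXe ▸ S.ql_X hJ hY QY
  have hX0 : X ≠ 0 := fun h => hXt (h ▸ isAlgebraic_zero)
  have hXF0 : algebraMap E F X ≠ 0 := by rwa [Ne, map_eq_zero]
  have QXi : QL M r π Φ w (algebraMap E F X⁻¹) := by
    rw [map_inv₀]; exact QX.inv S.hπ hXF0
  have hJk0 : castS k (Jh M) ≠ 0 := castS_Jh_ne_zero k M
  have hXk0 : castS k (Xh M ℓ) ≠ 0 := by
    rw [castS_Xh k ℓ M]
    exact pow_ne_zero _ hJk0
  have hredX : RedK r (Φ (algebraMap E F X)) (castS k (Xh M ℓ)) := by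
    rw [hX]; exact RedK.of_castS _
  have hwX : w (algebraMap E F X) = algebraMap E F X := by rw [hXe]; exact S.w_X hJ hY
  have htk : Transcendental k (castS k (Xh M ℓ))⁻¹ := by
    intro h
    refine Fermat.Agent.Crux.GM.transcendental_of_order_neg (castS k (Xh M ℓ)) ?_
      (IsAlgebraic.inv_iff.mp h)
    rw [castS_Xh k ℓ M, HahnSeries.order_pow, order_castS_Jh]
    have h1 : (0 : ℤ) < (M : ℤ) := by exact_mod_cast Nat.pos_of_ne_zero (NeZero.ne M)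
    have h2 : (0 : ℤ) < ((ℓ + 1 : ℕ) : ℤ) := by exact_mod_cast Nat.succ_pos ℓ
    rw [nsmul_eq_mul]
    nlinarith
  -- the chart `X⁻¹`
  letI iF := algL (A := A) F X⁻¹
  letI iE := algE (A := A) X⁻¹
  haveI iT : IsScalarTower A[X] E F := isScalarTower_alg X⁻¹
  haveI iFr : IsFractionRing A[X] E :=
    isFractionRing_algE (transcendental_inv hXt) (hgen_inv hXt hgen)
  obtain ⟨B, G, -⟩ := exists_good S X⁻¹ (castS k (Xh M ℓ))⁻¹
    (by rw [map_inv₀, map_inv₀]; exact hredX.inv hXk0)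
    (by rw [map_inv₀, map_inv₀, hwX])
    (by rw [map_inv₀, V_castS k ℓ, inv_pow]) QXi
    (fun a ha hint => by
      obtain ⟨c, h1, h2⟩ := S.lift_Xinv hJ hY Ginf a ha hint
      refine ⟨c, (intX_algebraMap_iff X⁻¹ c).mp ?_, h2⟩
      rw [map_inv₀, hXe]; exact h1) htk
  -- the element `u = Y / J ^ ℓ`
  have hJK0 : castS K (Jh M) ≠ 0 := castS_Jh_ne_zero K M
  have hΦu : Φ (Yf / Jf ^ ℓ) = castS K (Jh (M * ℓ)) / castS K (Jh M) ^ ℓ := by
    rw [map_div₀, map_pow, hJ, hY]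
  have hu₁ : RedK r (Φ (Yf / Jf ^ ℓ)) 1 := by
    rw [hΦu]
    have h := (RedK.of_castS (K := K) (r := r) (Jh (M * ℓ))).div
      ((RedK.of_castS (K := K) (r := r) (Jh M)).pow ℓ) (pow_ne_zero _ hJk0)
    rwa [castS_Jh_mul k ℓ M, div_self (pow_ne_zero _ hJk0)] at h
  have hu₂ : RedK r (Φ (w (Yf / Jf ^ ℓ))) ((castS k (Xh M ℓ))⁻¹ ^ (ℓ - 1)) := by
    rw [map_div₀, map_pow, S.w_J hJ hY, S.w_Y hJ hY, map_div₀, map_pow, hJ, hY]
    have h := (RedK.of_castS (K := K) (r := r) (Jh M)).div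
      ((RedK.of_castS (K := K) (r := r) (Jh (M * ℓ))).pow ℓ)
      (pow_ne_zero _ (by rw [castS_Jh_mul k ℓ M]; exact pow_ne_zero _ hJk0))
    refine h.congr rfl ?_
    rw [castS_Jh_mul k ℓ M, castS_Xh k ℓ M]
    obtain ⟨n, rfl⟩ : ∃ n, ℓ = n + 1 := ⟨ℓ - 1, by have := hℓ.pos; omega⟩
    rw [Nat.add_sub_cancel, div_eq_iff (pow_ne_zero _ (pow_ne_zero _ hJk0)), inv_pow,
      eq_comm, inv_mul_eq_iff_eq_mul₀ (pow_ne_zero _ (pow_ne_zero _ hJk0))]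
    ring
  have huOL : IsOL π (Yf / Jf ^ ℓ) :=
    (isOLx_algebraMap_iff π X⁻¹ _).1 (QXi.isOL _ _ _ hu₁ hu₂)
  have huBK : IsBK π (Yf / Jf ^ ℓ) := by
    refine S.isBK_of_isIntegralElem X⁻¹ _ ?_
    rw [map_inv₀, map_inv₀, hX, hΦu]
    exact hU
  have huint : IsIntegral A[X] (Yf / Jf ^ ℓ) := isIntegral_of_isOL_of_isBK E S.hπ.prime huOL huBK
  let u : SM A F := ⟨Yf / Jf ^ ℓ, huint⟩
  have hu1 : r₁ B u = 1 := (G.redK_r₁ u).unique hu₁
  have hu2 : r₂ B u = (castS k (Xh M ℓ))⁻¹ ^ (ℓ - 1) := (G.redK_r₂ u).unique hu₂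
  obtain ⟨j, φ, hφ0, hφ, hred, hP⟩ := cusp_prime E G u (ℓ - 1)
    (by have := hℓ.two_le; omega) hu1 hu2 m hm W hW hinvinf
  refine ⟨j, ⟨φ, hφ⟩, fun h0 => hφ0 (congrArg Subtype.val h0), hred, fun V hk Jb hJb hJV => ?_⟩
  have hJb0 : Jb ≠ 0 := fun h0 => hJV (h0 ▸ V.zero_mem)
  have hJi : Jb⁻¹ ∈ V := (V.mem_or_inv_mem Jb).resolve_left hJV
  refine exists_unit_of_prime G (φ := ⟨φ, hφ⟩) hP V hk ((Jb ^ (ℓ + 1))⁻¹) ?_ ?_ ?_
  · change ((Jb : LaurentSeries k) ^ (ℓ + 1))⁻¹ = _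
    rw [hJb, castS_Xh k ℓ M]
  · rw [← inv_pow]; exact pow_mem hJi _
  · rw [inv_inv]
    intro h
    apply hJV
    have e : Jb = Jb ^ (ℓ + 1) * Jb⁻¹ ^ ℓ := by
      rw [pow_succ, inv_pow, mul_assoc, mul_comm Jb, ← mul_assoc,
        mul_inv_cancel₀ (pow_ne_zero _ hJb0), one_mul]
    rw [e]
    exact mul_mem h (pow_mem hJi _)

end Fermat.Agent.S44.Cusp
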