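import Fermat.Agent.SS.GM2.Desc.IntDesc
import Fermat.Agent.SS.GM2.Setup
import Fermat.Agent.S28.Transfer

/-!
# S44 / Cusp / U : `u = j(q^{Mℓ}) / j(q^M)^ℓ` is integral over `K[1/X]`, `X = j(q^M) j(q^{Mℓ})`.

MATHS.  `𝕂` a field with `D : S28.ModEqData 𝕂 ℓ`.  `D.hΦ`:  `Φ(j(q^ℓ), Z) = (Z - j(q^{ℓ²})) ∏_{b<ℓ} (Z - j(ζ^b q))` in `𝕂((q))[Z]`, `Φ ∈ 𝕂[x][Z]` monic.
All `ℓ + 1` roots have no coefficient below `q^{-ℓ²}` (`Low _ (-ℓ²)`), so the coefficient of `Z^{ℓ+1-i}` is `Low _ (-ℓ² i)`  (`low_coeff_prod`);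
it is `c_i(j(q^ℓ))`, `c_i = Φ.coeff (ℓ+1-i) ∈ 𝕂[x]`, and `j(q^ℓ)` has order `-ℓ`, so `natDegree c_i ≤ ℓ i`  (`natDegree_le_of_low`).
`Z = j(q^{ℓ²})` is a root; `V_ℓ` is injective and commutes with everything, then apply `V_M`:  `Φ(J, Y) = 0` for `J = j(q^M)`, `Y = j(q^{Mℓ})`.
With `a = 1/J`, `u = Y a^ℓ`:   `u^{ℓ+1} + ∑_{i ≥ 1} (c_i(J) a^{ℓ i}) u^{ℓ+1-i} = 0`,  `c_i(J) a^{ℓ i} ∈ 𝕂[a]`.
So every valuation ring `W ⊇ 𝕂` of `𝕂((q))` containing `a` contains `u` (`mem_of_rel`).   `a = Y * (1/X)`; if `1/X ∈ W` then `a ∈ W` (unit trick: if `a ∉ W` then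
`J ∈ W`, so `Y ∈ W` by integrality (`S28.isIntegralElem_V_of_dvd`), so `a = Y / X ∈ W`).

TASKS  S44/Cusp-Ua (`Low` calculus, `low_coeff_prod`), S44/Cusp-Ub (`natDegree_le_of_low`, `natDegree_coeff_Phi`), S44/Cusp-Uc (`eval_Phi`, `mem_of_rel`),
       S44/Cusp-Ud (`u_mem`, `isIntegralElem_u`).
-/

set_option autoImplicit false
set_option linter.unusedSectionVars false

open Polynomial ModularCurve

namespace Fermat.Agent.S44.Cusp

open Fermat.Agent.SS.GM2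
open Fermat.Agent.S28 (V J evAt scale ModEqData)
open Fermat.Agent.Crux.GM (castS)
open Fermat.Agent.ES (Qb)

section Low

variable {𝕂 : Type*} [Field 𝕂]

/-- no coefficient below `q ^ b`. -/
def Low (x : LaurentSeries 𝕂) (b : ℤ) : Prop := ∀ e < b, x.coeff e = 0

/-! ### TASK S44/Cusp-Ua -/

theorem Low.zero (b : ℤ) : Low (0 : LaurentSeries 𝕂) b := by
  intro e _
  exact HahnSeries.coeff_zero

theorem Low.one : Low (1 : LaurentSeries 𝕂) 0 := by
  intro e he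
  rw [HahnSeries.coeff_one, if_neg (ne_of_lt he)]

theorem Low.mono {x : LaurentSeries 𝕂} {b b' : ℤ} (h : Low x b) (hb : b' ≤ b) : Low x b' := by
  intro e he
  exact h e (lt_of_lt_of_le he hb)

theorem Low.add {x y : LaurentSeries 𝕂} {b : ℤ} (hx : Low x b) (hy : Low y b) : Low (x + y) b := by
  intro e he
  rw [HahnSeries.coeff_add, hx e he, hy e he, add_zero]

theorem Low.neg {x : LaurentSeries 𝕂} {b : ℤ} (hx : Low x b) : Low (-x) b := by
  intro e he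
  rw [HahnSeries.coeff_neg, hx e he, neg_zero]

/-- `HahnSeries.coeff_mul` (sum over `addAntidiagonal`): if `i + j = e < b + b'` then `i < b` or `j < b'`. -/
theorem Low.mul {x y : LaurentSeries 𝕂} {b b' : ℤ} (hx : Low x b) (hy : Low y b') :
    Low (x * y) (b + b') := by
  intro e he
  rw [HahnSeries.coeff_mul]
  refine Finset.sum_eq_zero fun ij hij => ?_
  have h1 : ij.1 + ij.2 = e := (Finset.mem_addAntidiagonal.1 hij).2.2
  by_cases h2 : ij.1 < b
  · rw [hx _ h2, zero_mul]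
  · rw [hy _ (by omega), mul_zero]

/-- `x ≠ 0`: `Low x x.order` (`HahnSeries.coeff_eq_zero_of_lt_order`). -/
theorem low_order (x : LaurentSeries 𝕂) : Low x x.order := by
  intro e he
  exact HahnSeries.coeff_eq_zero_of_lt_order he

/-- `x ≠ 0`, `Low x b` ⟹ `b ≤ x.order` (`HahnSeries.coeff_order_ne_zero`). -/
theorem Low.le_order {x : LaurentSeries 𝕂} {b : ℤ} (hx : Low x b) (h0 : x ≠ 0) : b ≤ x.order := by
  by_contra h
  exact h0 (HahnSeries.coeff_order_eq_zero.1 (hx _ (not_le.1 h)))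

/-- Induction on `s` (`Finset.induction_on`): `(G * (X - C ρ)).coeff m = G.coeff (m - 1) - ρ * G.coeff m`
(`Polynomial.coeff_mul_X_sub_C` for `m = m' + 1`, `mul_coeff_zero` for `m = 0`); `D ≥ 0`. -/
theorem low_coeff_prod {ι : Type*} (s : Finset ι) (ρ : ι → LaurentSeries 𝕂) (D : ℕ)
    (h : ∀ i ∈ s, Low (ρ i) (-(D : ℤ))) (m : ℕ) (hm : m ≤ s.card) :
    Low ((∏ i ∈ s, (X - C (ρ i))).coeff m) (-((D : ℤ) * ((s.card - m : ℕ) : ℤ))) := by
  classical
  induction s using Finset.induction_on generalizing m with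
  | empty =>
    have hm0 : m = 0 := by simpa using hm
    subst hm0
    simpa using (Low.one (𝕂 := 𝕂))
  | insert a s ha ih =>
    have ih' := ih (fun i hi => h i (Finset.mem_insert_of_mem hi))
    have hρ := h a (Finset.mem_insert_self a s)
    rw [Finset.prod_insert ha, Finset.card_insert_of_notMem ha, mul_comm]
    rw [Finset.card_insert_of_notMem ha] at hm
    have hD : (0 : ℤ) ≤ (D : ℤ) := Int.natCast_nonneg D
    -- the term `ρ * G.coeff m`
    have key : Low (ρ a * (∏ i ∈ s, (X - C (ρ i))).coeff m)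
        (-((D : ℤ) * ((s.card + 1 - m : ℕ) : ℤ))) := by
      by_cases hms : m ≤ s.card
      · refine (hρ.mul (ih' m hms)).mono (le_of_eq ?_)
        have : ((s.card + 1 - m : ℕ) : ℤ) = ((s.card - m : ℕ) : ℤ) + 1 := by
          have : s.card + 1 - m = s.card - m + 1 := by omega
          rw [this]; push_cast; ring
        rw [this]; ring
      · have hdeg : (∏ i ∈ s, (X - C (ρ i))).natDegree = s.card := by
          rw [natDegree_prod_of_monic _ _ (fun i _ => monic_X_sub_C _)]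
          simp
        rw [coeff_eq_zero_of_natDegree_lt (by rw [hdeg]; omega), mul_zero]
        exact Low.zero _
    cases m with
    | zero =>
      rw [mul_coeff_zero, coeff_sub, coeff_X_zero, coeff_C_zero, zero_sub, mul_neg, mul_comm]
      exact key.neg
    | succ m' =>
      rw [coeff_mul_X_sub_C, sub_eq_add_neg, mul_comm]
      refine Low.add ?_ key.neg
      have := ih' m' (by omega)
      have e : s.card + 1 - (m' + 1) = s.card - m' := by omega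
      rw [e]
      exact this

/-! ### TASK S44/Cusp-Ub -/

/-- `x` of order `-e < 0`: `evAt x c` has order `-e * natDegree c` for `c ≠ 0` (the top term `c_d x^d` has order `-e d`, strictly smaller than all the
others; e.g. induction on `natDegree` with `Polynomial.eraseLead`, or `c = C a * X^d + c'`, `natDegree c' < d`, `HahnSeries.order_add_of_order_lt`-style
lemmas; or look at the coefficient of `q^{-e d}` directly: it is `c_d * (leading coeff of x)^d ≠ 0` because the other terms are `Low _ (-e (d-1))`). -/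
theorem natDegree_le_of_low {x : LaurentSeries 𝕂} {e : ℕ} (he : 0 < e) (hx0 : x ≠ 0)
    (hx : x.order = -(e : ℤ)) (c : 𝕂[X]) (D : ℕ) (h : Low (evAt x c) (-((e : ℤ) * D))) :
    c.natDegree ≤ D := by
  by_contra hlt
  push Not at hlt
  have hc0 : c ≠ 0 := by
    rintro rfl
    simp at hlt
  have hord : ∀ i : ℕ, (x ^ i).order = -((e : ℤ) * i) := by
    intro i
    rw [HahnSeries.order_pow, hx]
    simp [mul_comm]
  have heZ : (0 : ℤ) < e := by exact_mod_cast he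
  have hcoeff : (evAt x c).coeff (-((e : ℤ) * c.natDegree))
      = c.coeff c.natDegree * (x ^ c.natDegree).coeff (-((e : ℤ) * c.natDegree)) := by
    rw [evAt, coe_eval₂RingHom, eval₂_eq_sum_range, HahnSeries.coeff_sum, Finset.sum_range_succ,
      Finset.sum_eq_zero, zero_add, HahnSeries.C_mul_eq_smul, HahnSeries.coeff_smul, smul_eq_mul]
    intro i hi
    rw [HahnSeries.C_mul_eq_smul, HahnSeries.coeff_smul, HahnSeries.coeff_eq_zero_of_lt_order,
      smul_zero]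
    rw [hord]
    have hi' : (i : ℤ) < c.natDegree := by exact_mod_cast Finset.mem_range.1 hi
    nlinarith
  have h1 : (evAt x c).coeff (-((e : ℤ) * c.natDegree)) = 0 := by
    apply h
    have : (D : ℤ) < c.natDegree := by exact_mod_cast hlt
    nlinarith
  rw [hcoeff] at h1
  rcases mul_eq_zero.1 h1 with h2 | h2
  · exact hc0 (leadingCoeff_eq_zero.1 h2)
  · rw [← hord] at h2
    exact (HahnSeries.coeff_order_eq_zero.not.mpr (pow_ne_zero _ hx0)) h2

variable {ℓ : ℕ} [NeZero ℓ]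

/-- from `D.hΦ` (`natDegree_map_eq_of_injective`/`Monic.natDegree_map`, `natDegree_mul`, `natDegree_prod_of_monic`, `natDegree_X_sub_C`). -/
theorem natDegree_Phi (D : ModEqData 𝕂 ℓ) : D.Φ.natDegree = ℓ + 1 := by
  rw [← D.hΦmonic.natDegree_map (evAt (V 𝕂 ℓ (J 𝕂))), D.hΦ,
    (monic_X_sub_C _).natDegree_mul (monic_prod_of_monic _ _ fun b _ => monic_X_sub_C _),
    natDegree_X_sub_C, natDegree_prod_of_monic _ _ fun b _ => monic_X_sub_C _]
  simp [add_comm]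

/-- `low_coeff_prod` for the `ℓ + 1` roots (index type e.g. `Option (Fin ℓ)` or `Finset.range (ℓ+1)`; `S28.order_V_J`, `S28.order_V_scale_J`/`order_scale`, `low_order`,
`Low.mono`), `(D.Φ.map (evAt x)).coeff n = evAt x (D.Φ.coeff n)`, then `natDegree_le_of_low` with `x = V 𝕂 ℓ (J 𝕂)`, `e = ℓ`. -/
theorem natDegree_coeff_Phi (D : ModEqData 𝕂 ℓ) (i : ℕ) (hi : i ≤ ℓ + 1) :
    (D.Φ.coeff (ℓ + 1 - i)).natDegree ≤ ℓ * i := by
  have hℓ : 0 < ℓ := Nat.pos_of_ne_zero (NeZero.ne ℓ)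
  set ρ : ℕ → LaurentSeries 𝕂 := fun b =>
    if b = ℓ then V 𝕂 ℓ (V 𝕂 ℓ (J 𝕂)) else scale (D.ζ ^ b) (J 𝕂) with hρ
  have hprod : D.Φ.map (evAt (V 𝕂 ℓ (J 𝕂))) = ∏ b ∈ Finset.range (ℓ + 1), (X - C (ρ b)) := by
    rw [D.hΦ, Finset.prod_range_succ, mul_comm]
    congr 1
    · refine Finset.prod_congr rfl fun b hb => ?_
      have : b ≠ ℓ := (Finset.mem_range.1 hb).ne
      simp [hρ, this]
    · simp [hρ]
  have hlow : ∀ b ∈ Finset.range (ℓ + 1), Low (ρ b) (-((ℓ * ℓ : ℕ) : ℤ)) := by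
    intro b _
    have hℓZ : (1 : ℤ) ≤ ℓ := by exact_mod_cast hℓ
    by_cases hb : b = ℓ
    · have h1 := low_order (V 𝕂 ℓ (V 𝕂 ℓ (J 𝕂)))
      rw [S28.order_V ℓ (S28.V_ne_zero ℓ S28.J_ne_zero), S28.order_V_J] at h1
      simp only [hρ, hb, if_true]
      refine h1.mono ?_
      push_cast
      linarith
    · have h1 := low_order (scale (D.ζ ^ b) (J 𝕂))
      rw [S28.order_scale _ S28.J_ne_zero, S28.order_J] at h1
      simp only [hρ, hb, if_false]
      refine h1.mono ?_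
      push_cast
      nlinarith
  have h2 := low_coeff_prod (Finset.range (ℓ + 1)) ρ (ℓ * ℓ) hlow (ℓ + 1 - i)
    (by rw [Finset.card_range]; omega)
  rw [← hprod, coeff_map, Finset.card_range] at h2
  have h3 : ℓ + 1 - (ℓ + 1 - i) = i := by omega
  rw [h3] at h2
  refine natDegree_le_of_low hℓ (S28.V_ne_zero ℓ S28.J_ne_zero) (S28.order_V_J ℓ) _ _ ?_
  convert h2 using 2
  push_cast
  ring

/-! ### TASK S44/Cusp-Uc -/

theorem eval_Phi_hmap (n : ℕ) [NeZero n] (x : LaurentSeries 𝕂) (G : Polynomial 𝕂[X]) :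
    (G.map (evAt x)).map (V 𝕂 n) = G.map (evAt (V 𝕂 n x)) := by
  rw [Polynomial.map_map]
  congr 1
  refine Polynomial.ringHom_ext (fun a => ?_) ?_
  · simp [evAt]
  · simp [evAt]

theorem mem_of_rel_aux {L : Type*} [Field L] (W : ValuationSubring L) (f : 𝕂[X] →+* L)
    (hC : ∀ c : 𝕂, f (C c) ∈ W) (hJ0 : f X ≠ 0) (hJ : (f X)⁻¹ ∈ W) (c : 𝕂[X]) (m : ℕ)
    (hc : c.natDegree ≤ m) : f c * (f X)⁻¹ ^ m ∈ W := by
  have h0 : f c * (f X)⁻¹ ^ m
      = ∑ k ∈ Finset.range (m + 1), f (monomial k (c.coeff k)) * (f X)⁻¹ ^ m := by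
    conv_lhs => rw [c.as_sum_range' (m + 1) (by omega)]
    rw [map_sum, Finset.sum_mul]
  rw [h0]
  refine sum_mem (fun k hk => ?_)
  rw [Finset.mem_range] at hk
  have h1 : f (monomial k (c.coeff k)) * (f X)⁻¹ ^ m = f (C (c.coeff k)) * (f X)⁻¹ ^ (m - k) := by
    rw [← C_mul_X_pow_eq_monomial, map_mul, map_pow, mul_assoc]
    congr 1
    have h2 : m = k + (m - k) := by omega
    conv_lhs => rw [h2, pow_add, ← mul_assoc, ← mul_pow, mul_inv_cancel₀ hJ0, one_pow, one_mul]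
  rw [h1]
  exact mul_mem (hC _) (pow_mem hJ _)

/-- `D.hΦ` at `Z = V ℓ (V ℓ J)` gives `0`; `(G.map (evAt (J 𝕂))).map (V 𝕂 p) = G.map (evAt (V 𝕂 p (J 𝕂)))` (`S28.V_comp_evAt`, see `S28/BuildData.lean`, `hmap`),
`Polynomial.eval_map_apply`, `qExpand_injective`; `V 𝕂 M (V 𝕂 ℓ x) = V 𝕂 (M * ℓ) x` (`qExpand_qExpand`, `qExpand_congr`). -/
theorem eval_Phi (D : ModEqData 𝕂 ℓ) (M : ℕ) [NeZero M] :
    (D.Φ.map (evAt (V 𝕂 M (J 𝕂)))).eval (V 𝕂 (M * ℓ) (J 𝕂)) = 0 := by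
  have h1 : (D.Φ.map (evAt (V 𝕂 ℓ (J 𝕂)))).eval (V 𝕂 ℓ (V 𝕂 ℓ (J 𝕂))) = 0 := by
    rw [D.hΦ, eval_mul, eval_sub, eval_X, eval_C, sub_self, zero_mul]
  have h2 : (D.Φ.map (evAt (J 𝕂))).eval (V 𝕂 ℓ (J 𝕂)) = 0 := by
    apply qExpand_injective (R := 𝕂) ℓ
    rw [map_zero, ← Polynomial.eval_map_apply, eval_Phi_hmap, h1]
  have h3 : V 𝕂 M ((D.Φ.map (evAt (J 𝕂))).eval (V 𝕂 ℓ (J 𝕂))) = 0 := by rw [h2, map_zero]
  rw [← Polynomial.eval_map_apply, eval_Phi_hmap, qExpand_qExpand] at h3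
  exact h3

/-- **the valuation argument** (pure algebra).  `L` a field, `W` a valuation subring, `f : 𝕂[X] →+* L` with `f (C c) ∈ W`, `Jl = f X ≠ 0`, `Jl⁻¹ ∈ W`,
`P ∈ 𝕂[X][Z]` monic of degree `n`, `natDegree (P.coeff (n - i)) ≤ e * i`, `P(Jl, Yl) = 0`.  Then `u = Yl * Jl⁻¹ ^ e ∈ W`.
Proof: `d_i := f (P.coeff (n - i)) * Jl⁻¹ ^ (e * i) ∈ W` (sum of `c_m Jl⁻¹ ^ (e i - m)`), `∑_{i ≤ n} d_i u ^ (n - i) = 0`, `d_0 = 1`;
so `u` is integral over `W` (or: if `u ∉ W` then `u⁻¹ ∈ W` and `u = - ∑_{i ≥ 1} d_i (u⁻¹) ^ (i - 1) ∈ W`). -/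
theorem mem_of_rel {L : Type*} [Field L] (W : ValuationSubring L) (f : 𝕂[X] →+* L)
    (hC : ∀ c : 𝕂, f (C c) ∈ W) (hJ0 : f X ≠ 0) (hJ : (f X)⁻¹ ∈ W)
    (P : Polynomial 𝕂[X]) (hP : P.Monic) (e : ℕ)
    (hdeg : ∀ i ≤ P.natDegree, (P.coeff (P.natDegree - i)).natDegree ≤ e * i)
    (Yl : L) (hroot : (P.map f).eval Yl = 0) : Yl * (f X)⁻¹ ^ e ∈ W := by
  have hPm : (P.map f).Monic := hP.map f
  have hnd : (P.map f).natDegree = P.natDegree := hP.natDegree_map f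
  have hRm : ((P.map f).scaleRoots ((f X)⁻¹ ^ e)).Monic := (monic_scaleRoots_iff _).mpr hPm
  have hRroot : ((P.map f).scaleRoots ((f X)⁻¹ ^ e)).eval ((f X)⁻¹ ^ e * Yl) = 0 := by
    have h1 := scaleRoots_eval₂_eq_zero (RingHom.id L) (p := P.map f) (r := Yl)
      (s := (f X)⁻¹ ^ e) (by rw [eval₂_id]; exact hroot)
    rw [eval₂_id] at h1
    exact h1
  have hlift : (P.map f).scaleRoots ((f X)⁻¹ ^ e) ∈ lifts W.subtype := by
    rw [lifts_iff_coeff_lifts]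
    intro j
    rw [coeff_scaleRoots, hnd, coeff_map]
    by_cases hj : j ≤ P.natDegree
    · have h1 := hdeg (P.natDegree - j) (Nat.sub_le _ _)
      rw [Nat.sub_sub_self hj] at h1
      have h2 := mem_of_rel_aux W f hC hJ0 hJ _ _ h1
      rw [pow_mul] at h2
      exact ⟨⟨_, h2⟩, rfl⟩
    · rw [coeff_eq_zero_of_natDegree_lt (by omega), map_zero, zero_mul]
      exact ⟨0, map_zero _⟩
  obtain ⟨q, hq, -, hqm⟩ := lifts_and_natDegree_eq_and_monic hlift hRm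
  have hint : IsIntegral W ((f X)⁻¹ ^ e * Yl) := by
    refine ⟨q, hqm, ?_⟩
    have h3 : q.eval₂ W.subtype ((f X)⁻¹ ^ e * Yl) = 0 := by
      rw [← eval_map, hq, hRroot]
    exact h3
  obtain ⟨y, hy⟩ := IsIntegrallyClosed.isIntegral_iff.mp hint
  rw [mul_comm, ← hy]
  exact y.2

end Low

/-! ### TASK S44/Cusp-Ud -/

/-- over an algebraically closed field (`S28.exists_modEqData`).  `a := (V M J)⁻¹ ∈ W` by the unit trick (header), then `mem_of_rel` with `f = evAt (V 𝕂 M (J 𝕂))`,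
`P = D.Φ`, `e = ℓ` (`natDegree_Phi`, `natDegree_coeff_Phi`, `eval_Phi`). -/
theorem u_mem (𝕂 : Type) [Field 𝕂] [IsAlgClosed 𝕂] (M ℓ : ℕ) [NeZero M] [NeZero ℓ] (hℓ : ℓ.Prime)
    (W : ValuationSubring (LaurentSeries 𝕂)) (hC : ∀ c : 𝕂, (HahnSeries.C c : LaurentSeries 𝕂) ∈ W)
    (ht : (V 𝕂 M (J 𝕂) * V 𝕂 (M * ℓ) (J 𝕂))⁻¹ ∈ W) :
    V 𝕂 (M * ℓ) (J 𝕂) / V 𝕂 M (J 𝕂) ^ ℓ ∈ W := by
  have : Fact ℓ.Prime := ⟨hℓ⟩
  obtain ⟨D⟩ := Fermat.Agent.S28.exists_modEqData 𝕂 ℓ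
  have hJ0 : J 𝕂 ≠ 0 := jqModC_ne_zero_of_nontrivial 𝕂
  have hV0 : ∀ n : ℕ, [NeZero n] → V 𝕂 n (J 𝕂) ≠ 0 := fun n _ =>
    (map_ne_zero_iff _ (qExpand_injective n)).mpr hJ0
  have hX : evAt (V 𝕂 M (J 𝕂)) X = V 𝕂 M (J 𝕂) := by simp [evAt]
  have hCc : ∀ c : 𝕂, evAt (V 𝕂 M (J 𝕂)) (C c) = HahnSeries.C c := fun c => by simp [evAt]
  have ha : (V 𝕂 M (J 𝕂))⁻¹ ∈ W := by
    rcases W.mem_or_inv_mem (V 𝕂 M (J 𝕂)) with hJW | hJW
    · have hev : ∀ c : 𝕂[X], evAt (V 𝕂 M (J 𝕂)) c ∈ W := by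
        intro c
        induction c using Polynomial.induction_on' with
        | add p q hp hq =>
          rw [map_add]
          exact add_mem hp hq
        | monomial n a =>
          rw [← C_mul_X_pow_eq_monomial, map_mul, map_pow, hX, hCc]
          exact mul_mem (hC a) (pow_mem hJW n)
      have hY : V 𝕂 (M * ℓ) (J 𝕂) ∈ W :=
        Fermat.Agent.S28.IntVal.mem_of_isIntegralElem W _ hev
          (Fermat.Agent.S28.isIntegralElem_V_of_dvd 𝕂 M (M * ℓ) (dvd_mul_right M ℓ)).1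
      have e : (V 𝕂 M (J 𝕂))⁻¹ = V 𝕂 (M * ℓ) (J 𝕂) * (V 𝕂 M (J 𝕂) * V 𝕂 (M * ℓ) (J 𝕂))⁻¹ := by
        rw [mul_inv, mul_comm (V 𝕂 M (J 𝕂))⁻¹, mul_inv_cancel_left₀ (hV0 (M * ℓ))]
      rw [e]
      exact mul_mem hY ht
    · exact hJW
  have h := mem_of_rel W (evAt (V 𝕂 M (J 𝕂))) (fun c => by rw [hCc]; exact hC c)
    (by rw [hX]; exact hV0 M) (by rw [hX]; exact ha) D.Φ D.hΦmonic ℓ
    (fun i hi => by
      rw [natDegree_Phi D] at hi ⊢
      exact natDegree_coeff_Phi D i hi)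
    (V 𝕂 (M * ℓ) (J 𝕂)) (eval_Phi D M)
  rw [hX] at h
  rw [div_eq_mul_inv, ← inv_pow]
  exact h

/-- **EXPORT.**  As in `SS.GM2.isIntegralElem_of_bar`: `isIntegralElem_of_forall_valuationSubring` for `(coeffMap (algebraMap K Qb)).comp (evAt t)`; such a `W` contains the
constants of `K`, hence those of `Qb` (integral over `K`), and `t`; `u_mem` for `𝕂 = Qb`; `coeffMap` is injective.
`castS K (Jh M) = V K M (J K)` : `Crux.GM.CoordJ.castS_VJ` (+ `jqModC`/`J` unfolding as in `SS/GM2/Setup.lean`), `Crux.GM.coeffMap_castS`. -/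
theorem isIntegralElem_u (K : Type) [Field K] [Algebra K Qb] (M ℓ : ℕ) [NeZero M] [NeZero ℓ]
    (hℓ : ℓ.Prime) :
    (evAt (castS K (Xh M ℓ))⁻¹).IsIntegralElem (castS K (Jh (M * ℓ)) / castS K (Jh M) ^ ℓ) := by
  have hinj : Function.Injective (coeffMap (algebraMap K Qb)) :=
    Fermat.Agent.Crux.coeffMap_injective _ (algebraMap K Qb).injective
  have hVJ : ∀ n : ℕ, [NeZero n] →
      coeffMap (algebraMap K Qb) (castS K (Jh n)) = V Qb n (J Qb) := fun n _ => by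
    rw [Fermat.Agent.Crux.GM.coeffMap_castS, Fermat.Agent.Crux.GM.CoordJ.castS_VJ]
  have key : ((coeffMap (algebraMap K Qb)).comp (evAt (castS K (Xh M ℓ))⁻¹)).IsIntegralElem
      (coeffMap (algebraMap K Qb) (castS K (Jh (M * ℓ)) / castS K (Jh M) ^ ℓ)) := by
    apply isIntegralElem_of_forall_valuationSubring
    intro W hW
    have hc0 : ∀ c : K, ((algebraMap Qb (LaurentSeries Qb)).comp (algebraMap K Qb)) c ∈ W := by
      intro c
      have h1 := hW (Polynomial.C c)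
      have h2 : ((coeffMap (algebraMap K Qb)).comp (evAt (castS K (Xh M ℓ))⁻¹)) (Polynomial.C c)
          = ((algebraMap Qb (LaurentSeries Qb)).comp (algebraMap K Qb)) c := by
        rw [RingHom.comp_apply, RingHom.comp_apply, algebraMap_laurentSeries_eq_single]
        simp [evAt]
      rwa [h2] at h1
    have ht : (V Qb M (J Qb) * V Qb (M * ℓ) (J Qb))⁻¹ ∈ W := by
      have h1 := hW Polynomial.X
      have h2 : ((coeffMap (algebraMap K Qb)).comp (evAt (castS K (Xh M ℓ))⁻¹)) Polynomial.X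
          = (V Qb M (J Qb) * V Qb (M * ℓ) (J Qb))⁻¹ := by
        have h3 : evAt (castS K (Xh M ℓ))⁻¹ Polynomial.X = (castS K (Xh M ℓ))⁻¹ := by simp [evAt]
        have h4 : castS K (Xh M ℓ) = castS K (Jh M) * castS K (Jh (M * ℓ)) := map_mul _ _ _
        rw [RingHom.comp_apply, h3, map_inv₀, h4, map_mul, hVJ M, hVJ (M * ℓ)]
      rwa [h2] at h1
    have hc : ∀ c : Qb, (HahnSeries.C c : LaurentSeries Qb) ∈ W := by
      intro c
      have hch : CharZero K :=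
        ((algebraMap K Qb).charZero_iff (algebraMap K Qb).injective).2 inferInstance
      have halg : IsAlgebraic ℚ c := (AlgebraicClosure.isAlgebraic ℚ).isAlgebraic c
      have hint : IsIntegral K c := (halg.tower_top K).isIntegral
      obtain ⟨p, hp, hroot⟩ := hint
      have h5 : algebraMap Qb (LaurentSeries Qb) c ∈ W := by
        refine Fermat.Agent.S28.IntVal.mem_of_isIntegralElem W _ hc0 ⟨p, hp, ?_⟩
        rw [← Polynomial.hom_eval₂, hroot, map_zero]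
      rw [algebraMap_laurentSeries_eq_single] at h5
      exact h5
    rw [map_div₀, map_pow, hVJ M, hVJ (M * ℓ)]
    exact u_mem Qb M ℓ hℓ W hc ht
  obtain ⟨P, hP, hroot⟩ := key
  refine ⟨P, hP, hinj ?_⟩
  rw [Polynomial.hom_eval₂, hroot, map_zero]

end Fermat.Agent.S44.Cusp
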