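import Fermat.Agent.S44.Cusp.Abs

/-!
# S44 / Cusp / Val : from the primes of `B.R` to the valuation subrings of `F_k(M)`.
-/

set_option autoImplicit false
set_option linter.unusedSectionVars false
set_option linter.style.haveILetI false

open Polynomial ModularCurve

namespace Fermat.Agent.S44.Cusp

open Fermat.Agent.Crux.G Fermat.Agent.SS.G2 Fermat.Agent.S44.Loc Fermat.Agent.SS.GM2
open Fermat.Agent.S44.Bridge
open Fermat.Agent.S28 (V J evAt)

variable {M : ℕ} [NeZero M]
variable {A K k : Type} [CommRing A] [IsDomain A] [IsDiscreteValuationRing A] [Field K]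
  [Algebra A K] [IsFractionRing A K] [Field k] [Finite k] {r : A →+* k} {π : A}
variable {F : Type} [Field F] {Φ : F →+* LaurentSeries K} {w : F →+* F}
variable [Algebra A[X] F] {tk : LaurentSeries k} {hπ : Prime π}
  {B : BridgeData hπ F k (LaurentSeries k)}

/-- the inclusion `R → F_k(M)`. -/
noncomputable def toFull (G : Good M r Φ w tk B) : B.R →+* modularFunctionFieldFullC k M :=
  (B.R.val : B.R →+* LaurentSeries k).codRestrict (modularFunctionFieldFullC k M).toSubfield.toSubring
    (fun a => ((G.mem_R a).1 a.2).1)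

@[simp] theorem coe_toFull (G : Good M r Φ w tk B) (a : B.R) :
    ((toFull G a : modularFunctionFieldFullC k M) : LaurentSeries k) = a := rfl

/-- `R ⊆ V` as soon as `k ⊆ V`, `tk ∈ V`. -/
theorem toFull_mem (G : Good M r Φ w tk B) (V : ValuationSubring (modularFunctionFieldFullC k M))
    (hk : ∀ a : k, algebraMap k (modularFunctionFieldFullC k M) a ∈ V)
    (tb : modularFunctionFieldFullC k M) (htb : (tb : LaurentSeries k) = tk) (htV : tb ∈ V)
    (a : B.R) : toFull G a ∈ V := by
  obtain ⟨P, hP, hroot⟩ := ((G.mem_R a).1 a.2).2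
  refine Fermat.Agent.S28.IntVal.mem_of_isIntegralElem V
    ((aeval tb : k[X] →ₐ[k] modularFunctionFieldFullC k M) : k[X] →+* _)
    (fun c => aeval_mem_valuationSubring V hk htV c) ⟨P, hP, ?_⟩
  apply (algebraMap (modularFunctionFieldFullC k M) (LaurentSeries k)).injective
  rw [Polynomial.hom_eval₂, map_zero]
  have hcomp : (algebraMap (modularFunctionFieldFullC k M) (LaurentSeries k)).comp
      ((aeval tb : k[X] →ₐ[k] modularFunctionFieldFullC k M) : k[X] →+* _) = evAt tk := by
    refine Polynomial.ringHom_ext (fun c => ?_) ?_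
    · simp only [RingHom.comp_apply, RingHom.coe_coe, aeval_C,
        Fermat.Agent.S28.Build.evAt_C]
      rw [← IsScalarTower.algebraMap_apply, Fermat.Agent.S28.C_eq_algebraMap]
    · simp only [RingHom.comp_apply, RingHom.coe_coe, aeval_X, Fermat.Agent.S28.Build.evAt_X]
      exact htb
  rw [hcomp]
  exact hroot

theorem exists_unit_of_prime (G : Good M r Φ w tk B) {φ : modularFunctionFieldFullC k M} {m : ℕ}
    (h : ∀ P : Ideal B.R, P.IsPrime → r₁R B (xS A F) ∈ P →
        ∃ (η : LaurentSeries k) (s t : B.R), η ≠ 0 ∧ η ∈ modularFunctionFieldFullC k M ∧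
          s ∉ P ∧ t ∉ P ∧ (s : LaurentSeries k) * (η ^ m * φ) = t)
    (V : ValuationSubring (modularFunctionFieldFullC k M))
    (hk : ∀ a : k, algebraMap k (modularFunctionFieldFullC k M) a ∈ V)
    (tb : modularFunctionFieldFullC k M) (htb : (tb : LaurentSeries k) = tk) (htV : tb ∈ V)
    (htn : tb⁻¹ ∉ V) :
    ∃ η : modularFunctionFieldFullC k M, η ≠ 0 ∧ η ^ m * φ ∈ V ∧ (η ^ m * φ)⁻¹ ∈ V := by
  have hRV := toFull_mem G V hk tb htb htV
  let ι : B.R →+* V := (toFull G).codRestrict V.toSubring hRV
  have hι : ∀ a, ((ι a : V) : modularFunctionFieldFullC k M) = toFull G a := fun _ => rfl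
  let P : Ideal B.R := (IsLocalRing.maximalIdeal V).comap ι
  have hPp : P.IsPrime := Ideal.comap_isPrime _ _
  have hunit : ∀ a : B.R, a ∉ P → (toFull G a)⁻¹ ∈ V := by
    intro a ha
    have h1 : IsUnit (ι a) := by
      by_contra h2
      exact ha ((IsLocalRing.mem_maximalIdeal _).2 h2)
    obtain ⟨v, hv⟩ := h1
    have h3 : (toFull G a) * (((v⁻¹ : Vˣ) : V) : modularFunctionFieldFullC k M) = 1 := by
      rw [← hι, ← hv]
      exact_mod_cast congrArg Subtype.val v.mul_inv
    rw [inv_eq_of_mul_eq_one_right h3]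
    exact Subtype.property _
  have hx : r₁R B (xS A F) ∈ P := by
    rw [Ideal.mem_comap, IsLocalRing.mem_maximalIdeal, mem_nonunits_iff]
    intro hu
    obtain ⟨v, hv⟩ := hu
    apply htn
    have e : toFull G (r₁R B (xS A F)) = tb := by
      apply Subtype.ext
      rw [coe_toFull, coe_r₁R, r₁_xS G, htb]
    have h3 : tb * (((v⁻¹ : Vˣ) : V) : modularFunctionFieldFullC k M) = 1 := by
      rw [← e, ← hι, ← hv]
      exact_mod_cast congrArg Subtype.val v.mul_inv
    rw [inv_eq_of_mul_eq_one_right h3]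
    exact Subtype.property _
  obtain ⟨η, s, t, hη0, hη, hs, ht, e⟩ := h P hPp hx
  have hs0 : toFull G s ≠ 0 := by
    intro h0
    apply hs
    have : s = 0 := Subtype.ext (by
      have := congrArg Subtype.val h0
      simpa using this)
    rw [this]; exact P.zero_mem
  have ht0 : toFull G t ≠ 0 := by
    intro h0
    apply ht
    have : t = 0 := Subtype.ext (by
      have := congrArg Subtype.val h0
      simpa using this)
    rw [this]; exact P.zero_mem
  have e' : toFull G s * ((⟨η, hη⟩ : modularFunctionFieldFullC k M) ^ m * φ) = toFull G t :=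
    Subtype.ext e
  have e'' : (⟨η, hη⟩ : modularFunctionFieldFullC k M) ^ m * φ = toFull G t * (toFull G s)⁻¹ := by
    rw [← e']; field_simp
  refine ⟨⟨η, hη⟩, fun h0 => hη0 (congrArg Subtype.val h0), ?_, ?_⟩
  · rw [e'']; exact mul_mem (hRV t) (hunit s hs)
  · rw [e'', mul_inv, inv_inv]; exact mul_mem (hunit t ht) (hRV s)

end Fermat.Agent.S44.Cusp
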